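/-
S55 / FORMAL-B : pure linear algebra (finite-dimensional vector spaces over a field).
Dimension counts used by the `H^3`-free proof of `dim Sha^2(M) = dim Sha^1(M')`.
-/
import Mathlib

set_option autoImplicit false

namespace Fermat.Agent.S55.FB

open Module Submodule LinearMap

variable {k : Type} [Field k]

section helpers

variable {V W : Type} [AddCommGroup V] [Module k V] [AddCommGroup W] [Module k W]

/-- rank-nullity on a subspace. -/
theorem finrank_eq_inf_ker_add_map [FiniteDimensional k V] (f : V →ₗ[k] W) (T : Submodule k V) :
    finrank k T = finrank k (T ⊓ ker f : Submodule k V) + finrank k (T.map f) := by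
  have h := LinearMap.finrank_range_add_finrank_ker (f.domRestrict T)
  rw [LinearMap.range_domRestrict] at h
  have h2 : finrank k (ker (f.domRestrict T)) = finrank k (T ⊓ ker f : Submodule k V) := by
    rw [LinearMap.ker_domRestrict]
    have : (T ⊓ ker f : Submodule k V) = ((ker f).comap T.subtype).map T.subtype := by
      rw [Submodule.map_comap_subtype]
    rw [this]
    exact (LinearEquiv.finrank_eq (Submodule.equivMapOfInjective T.subtype
      (Submodule.injective_subtype T) _))
  omega

theorem finrank_eq_ker_add_map [FiniteDimensional k V] (f : V →ₗ[k] W) (T : Submodule k V)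
    (h : ker f ≤ T) : finrank k T = finrank k (ker f) + finrank k (T.map f) := by
  rw [finrank_eq_inf_ker_add_map f T, inf_eq_right.2 h]

/-- If `X ⊥ Z` for a pairing which is nondegenerate in the second variable then
`dim X + dim Z ≤ dim V`. -/
theorem finrank_add_le_of_orthogonal [FiniteDimensional k V] [FiniteDimensional k W]
    (b : V →ₗ[k] W →ₗ[k] k) (hb : ∀ w, (∀ v, b v w = 0) → w = 0)
    (X : Submodule k V) (Z : Submodule k W) (h : ∀ x ∈ X, ∀ z ∈ Z, b x z = 0) :
    finrank k X + finrank k Z ≤ finrank k V := by
  have hinj : Function.Injective b.flip := by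
    rw [← LinearMap.ker_eq_bot, LinearMap.ker_eq_bot']
    intro w hw
    exact hb w fun v => by simpa using congrArg (fun φ => φ v) hw
  have hle : Z.map b.flip ≤ X.dualAnnihilator := by
    rintro _ ⟨z, hz, rfl⟩
    rw [Submodule.mem_dualAnnihilator]
    intro x hx
    simpa using h x hx z hz
  have h1 : finrank k (Z.map b.flip) = finrank k Z :=
    (LinearEquiv.finrank_eq (Submodule.equivMapOfInjective b.flip hinj Z)).symm
  have h2 := Subspace.finrank_add_finrank_dualAnnihilator_eq X
  have h3 := Submodule.finrank_mono hle
  rw [← h2, ← h1]
  exact Nat.add_le_add_left h3 _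

end helpers

end Fermat.Agent.S55.FB
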