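/-
S55 / FORMAL-B : CLAIM 1 (pure linear algebra).
`dim (Sha^1(A) ∩ ker(H^1(A) → H^1(I))) ≤ dim Sha^2(A')`.
-/
import Fermat.Agent.S55.FB.Count

set_option autoImplicit false
set_option linter.unusedSectionVars false

namespace Fermat.Agent.S55.FB

open Module Submodule LinearMap

variable {k : Type} [Field k]

namespace Claim1aux

variable {V W : Type} [AddCommGroup V] [Module k V] [AddCommGroup W] [Module k W]

/-- A pairing `β` restricted to `U × T`, killing `T0 ≤ T` on the right, and with left kernel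
contained in `K`. -/
theorem pairing_count [FiniteDimensional k V] [FiniteDimensional k W]
    (β : V →ₗ[k] W →ₗ[k] k) (U K : Submodule k V) (T T0 : Submodule k W) (hT0 : T0 ≤ T)
    (hK : ∀ y ∈ U, (∀ ξ ∈ T, β y ξ = 0) → y ∈ K)
    (h0 : ∀ y ∈ U, ∀ ξ ∈ T0, β y ξ = 0) :
    finrank k U + finrank k T0 ≤ finrank k K + finrank k T := by
  let Ψ : U →ₗ[k] Dual k T := β.domRestrict₁₂ U T
  have hΨ : ∀ (y : U) (ξ : T), Ψ y ξ = β y.1 ξ.1 := fun y ξ => rfl
  have h1 := LinearMap.finrank_range_add_finrank_ker Ψ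
  -- the kernel
  have h2 : finrank k (ker Ψ) ≤ finrank k K := by
    have hle : (ker Ψ).map U.subtype ≤ K := by
      rintro _ ⟨y, hy, rfl⟩
      refine hK y.1 y.2 fun ξ hξ => ?_
      have := congrArg (fun φ => φ ⟨ξ, hξ⟩) (LinearMap.mem_ker.1 hy)
      simpa [hΨ] using this
    have he : finrank k ((ker Ψ).map U.subtype) = finrank k (ker Ψ) :=
      (LinearEquiv.finrank_eq (Submodule.equivMapOfInjective U.subtype
        (Submodule.injective_subtype U) _)).symm
    rw [← he]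
    exact Submodule.finrank_mono hle
  -- the range
  have h3 : range Ψ ≤ (T0.comap T.subtype).dualAnnihilator := by
    rintro _ ⟨y, rfl⟩
    rw [Submodule.mem_dualAnnihilator]
    intro ξ hξ
    rw [hΨ]
    exact h0 y.1 y.2 ξ.1 hξ
  have h4 := Subspace.finrank_add_finrank_dualAnnihilator_eq (T0.comap T.subtype)
  have h5 : finrank k (T0.comap T.subtype) = finrank k T0 := by
    have : T0 = (T0.comap T.subtype).map T.subtype := by
      rw [Submodule.map_comap_subtype, inf_eq_right.2 hT0]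
    conv_rhs => rw [this]
    exact (LinearEquiv.finrank_eq (Submodule.equivMapOfInjective T.subtype
      (Submodule.injective_subtype T) _))
  have h6 := Submodule.finrank_mono h3
  omega

/-- a functional killing `ker g` factors through `g`. -/
theorem exists_factor (g : V →ₗ[k] W) (h : V →ₗ[k] k) (hk : ∀ v, g v = 0 → h v = 0) :
    ∃ φ : W →ₗ[k] k, ∀ v, φ (g v) = h v := by
  have hmem : h ∈ (ker g).dualAnnihilator := by
    rw [Submodule.mem_dualAnnihilator]
    intro v hv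
    exact hk v (LinearMap.mem_ker.1 hv)
  rw [← LinearMap.range_dualMap_eq_dualAnnihilator_ker] at hmem
  obtain ⟨φ, hφ⟩ := hmem
  exact ⟨φ, fun v => by rw [← hφ]; rfl⟩

end Claim1aux

/-! ## CLAIM 1 : `dim (Sha^1(A) ∩ ker(H^1(A) → H^1(I))) ≤ dim Sha^2(A')` -/
section claim1

variable {H0I H0Q H1A H2Q' H2I' H2A' P0A P0I P0Q P1A P2Q' P2I' P2A' : Type}
  [AddCommGroup H0I] [Module k H0I] [FiniteDimensional k H0I]
  [AddCommGroup H0Q] [Module k H0Q] [FiniteDimensional k H0Q]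
  [AddCommGroup H1A] [Module k H1A] [FiniteDimensional k H1A]
  [AddCommGroup H2Q'] [Module k H2Q'] [FiniteDimensional k H2Q']
  [AddCommGroup H2I'] [Module k H2I'] [FiniteDimensional k H2I']
  [AddCommGroup H2A'] [Module k H2A'] [FiniteDimensional k H2A']
  [AddCommGroup P0A] [Module k P0A] [FiniteDimensional k P0A]
  [AddCommGroup P0I] [Module k P0I] [FiniteDimensional k P0I]
  [AddCommGroup P0Q] [Module k P0Q] [FiniteDimensional k P0Q]
  [AddCommGroup P1A] [Module k P1A] [FiniteDimensional k P1A]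
  [AddCommGroup P2Q'] [Module k P2Q'] [FiniteDimensional k P2Q']
  [AddCommGroup P2I'] [Module k P2I'] [FiniteDimensional k P2I']
  [AddCommGroup P2A'] [Module k P2A'] [FiniteDimensional k P2A']

theorem claim1
    -- global `H^0(I) → H^0(Q) → H^1(A)`
    (πG : H0I →ₗ[k] H0Q) (δG : H0Q →ₗ[k] H1A) (hδπ : ∀ i, δG (πG i) = 0)
    -- localisation maps
    (l0I : H0I →ₗ[k] P0I) (l0Q : H0Q →ₗ[k] P0Q) (l1A : H1A →ₗ[k] P1A)
    (hl0Q : Function.Injective l0Q)
    -- local `P^0(A) → P^0(I) → P^0(Q) → P^1(A)`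
    (ιL : P0A →ₗ[k] P0I) (πL : P0I →ₗ[k] P0Q) (δL : P0Q →ₗ[k] P1A)
    (hπι : ∀ a, πL (ιL a) = 0) (hL : ker δL ≤ range πL)
    (c1 : ∀ i, l0Q (πG i) = πL (l0I i)) (c2 : ∀ q, l1A (δG q) = δL (l0Q q))
    -- global `H^2(Q') → H^2(I') → H^2(A')`
    (j2 : H2Q' →ₗ[k] H2I') (ρ2 : H2I' →ₗ[k] H2A') (hG2 : ker ρ2 ≤ range j2)
    (l2Q : H2Q' →ₗ[k] P2Q') (l2I : H2I' →ₗ[k] P2I') (l2A : H2A' →ₗ[k] P2A')
    (jL : P2Q' →ₗ[k] P2I') (ρL : P2I' →ₗ[k] P2A')
    (c3 : ∀ η, l2I (j2 η) = jL (l2Q η)) (c4 : ∀ ξ, l2A (ρ2 ξ) = ρL (l2I ξ))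
    -- the local pairings `P^0(N) × P^2(N') → k`
    (bA : P0A →ₗ[k] P2A' →ₗ[k] k) (bI : P0I →ₗ[k] P2I' →ₗ[k] k) (bQ : P0Q →ₗ[k] P2Q' →ₗ[k] k)
    (adjA : ∀ a z, bI (ιL a) z = bA a (ρL z)) (adjQ : ∀ y η, bQ (πL y) η = bI y (jL η))
    -- reciprocity for `Q`
    (recQ : ∀ q η, bQ (l0Q q) (l2Q η) = 0)
    -- local duality for `A` : every functional on `P^2(A')` comes from `P^0(A)`
    (ldA : ∀ φ : P2A' →ₗ[k] k, ∃ a, ∀ z, bA a z = φ z)
    -- base case (B3) for `I`
    (b3 : ∀ y, (∀ ξ, bI y (l2I ξ) = 0) → y ∈ range l0I) :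
    finrank k (range δG ⊓ ker l1A : Submodule k H1A) ≤ finrank k (ker l2A) := by
  -- (1) `Σ0`
  have e1 := finrank_eq_ker_add_map δG ((ker l1A).comap δG) (fun q hq => by
    rw [Submodule.mem_comap, LinearMap.mem_ker.1 hq]; exact Submodule.zero_mem _)
  rw [Submodule.map_comap_eq] at e1
  -- (2) `Σ0.map l0Q ≤ U.map πL`
  have e2 : finrank k ((ker l1A).comap δG) ≤ finrank k (((range l0Q).comap πL).map πL) := by
    have he : finrank k (((ker l1A).comap δG).map l0Q) = finrank k ((ker l1A).comap δG) :=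
      (LinearEquiv.finrank_eq (Submodule.equivMapOfInjective l0Q hl0Q _)).symm
    rw [← he]
    apply Submodule.finrank_mono
    rw [Submodule.map_comap_eq]
    rintro _ ⟨q, hq, rfl⟩
    refine ⟨hL ?_, ⟨q, rfl⟩⟩
    rw [LinearMap.mem_ker, ← c2]
    exact hq
  -- (3) `U`
  have e3 := finrank_eq_ker_add_map πL ((range l0Q).comap πL) (fun y hy => by
    rw [Submodule.mem_comap, LinearMap.mem_ker.1 hy]; exact Submodule.zero_mem _)
  -- (4) the pairing count
  have e4 := Claim1aux.pairing_count (bI.compl₂ l2I) ((range l0Q).comap πL)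
    (range l0I ⊔ range ιL) ((ker l2A).comap ρ2) (range j2 ⊓ (ker l2A).comap ρ2) inf_le_right
    (by
      intro y _ hy
      obtain ⟨φ, hφ⟩ := Claim1aux.exists_factor (ρL ∘ₗ l2I) ((bI y) ∘ₗ l2I) (by
        intro ξ hξ
        refine hy ξ ?_
        rw [Submodule.mem_comap, LinearMap.mem_ker, c4]
        exact hξ)
      obtain ⟨a, ha⟩ := ldA φ
      have hmem : y - ιL a ∈ range l0I := by
        apply b3
        intro ξ
        rw [map_sub, LinearMap.sub_apply, adjA, ha]
        have := hφ ξ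
        simp only [LinearMap.comp_apply] at this
        rw [this, sub_self]
      have : y = (y - ιL a) + ιL a := by abel
      rw [this]
      exact Submodule.add_mem_sup hmem ⟨a, rfl⟩)
    (by
      rintro y ⟨q, hq⟩ _ ⟨⟨η, rfl⟩, -⟩
      rw [LinearMap.compl₂_apply, c3, ← adjQ, ← hq]
      exact recQ q η)
  -- (5) `K`
  have e5 : finrank k (range l0I ⊔ range ιL : Submodule k P0I) ≤
      finrank k (ker πL) + finrank k (ker δG) := by
    have h := finrank_eq_inf_ker_add_map πL (range l0I ⊔ range ιL)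
    have h1 : finrank k ((range l0I ⊔ range ιL) ⊓ ker πL : Submodule k P0I) ≤
        finrank k (ker πL) := Submodule.finrank_mono inf_le_right
    have h2 : (range l0I ⊔ range ιL).map πL ≤ (ker δG).map l0Q := by
      rw [Submodule.map_sup]
      apply sup_le
      · rintro _ ⟨_, ⟨i, rfl⟩, rfl⟩
        exact ⟨πG i, LinearMap.mem_ker.2 (hδπ i), c1 i⟩
      · rintro _ ⟨_, ⟨a, rfl⟩, rfl⟩
        rw [hπι]
        exact Submodule.zero_mem _
    have h3 := Submodule.finrank_mono h2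
    have h4 := Submodule.finrank_map_le l0Q (ker δG)
    omega
  -- (6) `T`
  have e6 := finrank_eq_ker_add_map ρ2 ((ker l2A).comap ρ2) (fun ξ hξ => by
    rw [Submodule.mem_comap, LinearMap.mem_ker.1 hξ]; exact Submodule.zero_mem _)
  have e7 : finrank k (((ker l2A).comap ρ2).map ρ2) ≤ finrank k (ker l2A) :=
    Submodule.finrank_mono (Submodule.map_comap_le _ _)
  have e8 : finrank k (ker ρ2) ≤ finrank k (range j2 ⊓ (ker l2A).comap ρ2 : Submodule k H2I') := by
    apply Submodule.finrank_mono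
    refine le_inf hG2 fun ξ hξ => ?_
    rw [Submodule.mem_comap, LinearMap.mem_ker.1 hξ]; exact Submodule.zero_mem _
  omega

end claim1

end Fermat.Agent.S55.FB
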