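/-
S55 / FORMAL-B : CLAIM 2 (pure linear algebra), proved by helper124.
`sha2(A) + sha2(Q') ≤ sha1(Q) + sha1(A')`.
-/
import Fermat.Agent.S55.FB.Count

set_option autoImplicit false
set_option linter.unusedSectionVars false

namespace Fermat.Agent.S55.FB

open Module Submodule LinearMap

variable {k : Type} [Field k]

section claim2

variable {H1I H1Q H2A H1Q' H1I' H1A' H2Q' H2I' : Type}
  {P1A P1I P1Q P2A P1Q' P1I' P1A' P2Q' P2I' : Type}
  [AddCommGroup H1I] [Module k H1I] [FiniteDimensional k H1I]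
  [AddCommGroup H1Q] [Module k H1Q] [FiniteDimensional k H1Q]
  [AddCommGroup H2A] [Module k H2A] [FiniteDimensional k H2A]
  [AddCommGroup H1Q'] [Module k H1Q'] [FiniteDimensional k H1Q']
  [AddCommGroup H1I'] [Module k H1I'] [FiniteDimensional k H1I']
  [AddCommGroup H1A'] [Module k H1A'] [FiniteDimensional k H1A']
  [AddCommGroup H2Q'] [Module k H2Q'] [FiniteDimensional k H2Q']
  [AddCommGroup H2I'] [Module k H2I'] [FiniteDimensional k H2I']
  [AddCommGroup P1A] [Module k P1A] [FiniteDimensional k P1A]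
  [AddCommGroup P1I] [Module k P1I] [FiniteDimensional k P1I]
  [AddCommGroup P1Q] [Module k P1Q] [FiniteDimensional k P1Q]
  [AddCommGroup P2A] [Module k P2A] [FiniteDimensional k P2A]
  [AddCommGroup P1Q'] [Module k P1Q'] [FiniteDimensional k P1Q']
  [AddCommGroup P1I'] [Module k P1I'] [FiniteDimensional k P1I']
  [AddCommGroup P1A'] [Module k P1A'] [FiniteDimensional k P1A']
  [AddCommGroup P2Q'] [Module k P2Q'] [FiniteDimensional k P2Q']
  [AddCommGroup P2I'] [Module k P2I'] [FiniteDimensional k P2I']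

theorem claim2
    -- global `H^1(I) → H^1(Q) → H^2(A)`; `π1` is injective because `H^1(A) → H^1(I)` is zero,
    -- `Sha^2(A) ⊆ range δ1` because `Sha^2(A) → H^2(I)` is zero
    (π1 : H1I →ₗ[k] H1Q) (δ1 : H1Q →ₗ[k] H2A)
    (hπ1 : Function.Injective π1) (hδπ : ∀ x, δ1 (π1 x) = 0)
    (l1I : H1I →ₗ[k] P1I) (l1Q : H1Q →ₗ[k] P1Q) (l2A : H2A →ₗ[k] P2A)
    (hSha : ker l2A ≤ range δ1)
    -- local `P^1(A) → P^1(I) → P^1(Q) → P^2(A)`
    (ιL : P1A →ₗ[k] P1I) (πL : P1I →ₗ[k] P1Q) (δL : P1Q →ₗ[k] P2A)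
    (hπι : ∀ a, πL (ιL a) = 0) (hL : ker δL ≤ range πL)
    (c1 : ∀ n, l2A (δ1 n) = δL (l1Q n))
    -- global `H^1(Q') → H^1(I') → H^1(A') → H^2(Q') → H^2(I')`
    (j1 : H1Q' →ₗ[k] H1I') (ρ1 : H1I' →ₗ[k] H1A') (δ1' : H1A' →ₗ[k] H2Q') (j2 : H2Q' →ₗ[k] H2I')
    (hρj : ker ρ1 ≤ range j1) (hδρ : ∀ x, δ1' (ρ1 x) = 0) (hjδ : ker j2 ≤ range δ1')
    (l1Q' : H1Q' →ₗ[k] P1Q') (l1I' : H1I' →ₗ[k] P1I') (l1A' : H1A' →ₗ[k] P1A')
    (l2Q' : H2Q' →ₗ[k] P2Q') (l2I' : H2I' →ₗ[k] P2I')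
    -- local `P^1(Q') → P^1(I') → P^1(A') → P^2(Q') → P^2(I')`
    (jL : P1Q' →ₗ[k] P1I') (ρL : P1I' →ₗ[k] P1A') (δL' : P1A' →ₗ[k] P2Q') (jL2 : P2Q' →ₗ[k] P2I')
    (hL' : ker δL' ≤ range ρL)
    (c2 : ∀ η, l1I' (j1 η) = jL (l1Q' η)) (c3 : ∀ m, l2Q' (δ1' m) = δL' (l1A' m))
    (c4 : ∀ x, l2I' (j2 x) = jL2 (l2Q' x))
    -- the local pairings `P^1(N) × P^1(N') → k`
    (bA : P1A →ₗ[k] P1A' →ₗ[k] k) (bI : P1I →ₗ[k] P1I' →ₗ[k] k) (bQ : P1Q →ₗ[k] P1Q' →ₗ[k] k)
    (adjA : ∀ a z, bI (ιL a) z = bA a (ρL z)) (adjQ : ∀ y η, bQ (πL y) η = bI y (jL η))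
    (recQ : ∀ n η, bQ (l1Q n) (l1Q' η) = 0)
    (ndA : ∀ z, (∀ a, bA a z = 0) → z = 0) (ndI : ∀ z, (∀ y, bI y z = 0) → z = 0)
    -- base cases (B1), (B2) for `I`
    (b1 : finrank k P1I ≤ finrank k (range l1I) + finrank k (range l1I'))
    (b2 : finrank k (ker l2I') ≤ finrank k (ker l1I)) :
    finrank k (ker l2A) + finrank k (ker l2Q') ≤ finrank k (ker l1Q) + finrank k (ker l1A') := by
  -- (1)
  set SQ : Submodule k H1Q := (ker l2A).comap δ1 with hSQ
  have e1a : SQ.map δ1 = ker l2A := by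
    rw [hSQ, Submodule.map_comap_eq, inf_eq_right.2 hSha]
  have e1b : ker δ1 ≤ SQ := by
    intro x hx
    rw [hSQ, Submodule.mem_comap, LinearMap.mem_ker.1 hx]
    exact zero_mem _
  have e1 : finrank k SQ = finrank k (ker δ1) + finrank k (ker l2A) := by
    rw [finrank_eq_ker_add_map δ1 SQ e1b, e1a]
  have e1c : finrank k H1I ≤ finrank k (ker δ1) := by
    rw [← LinearMap.finrank_range_of_inj hπ1]
    apply Submodule.finrank_mono
    rintro _ ⟨x, rfl⟩
    exact LinearMap.mem_ker.2 (hδπ x)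
  -- (2)
  have e2 : finrank k SQ ≤ finrank k (ker l1Q) + finrank k (SQ.map l1Q) := by
    rw [finrank_eq_inf_ker_add_map l1Q SQ]
    exact Nat.add_le_add_right (Submodule.finrank_mono inf_le_right) _
  -- (3)
  have e3a : SQ.map l1Q ≤ range πL := by
    rintro _ ⟨n, hn, rfl⟩
    apply hL
    rw [LinearMap.mem_ker, ← c1]
    exact hn
  set X : Submodule k P1I := (SQ.map l1Q).comap πL with hX
  have e3b : X.map πL = SQ.map l1Q := by
    rw [hX, Submodule.map_comap_eq, inf_eq_right.2 e3a]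
  have e3c : ker πL ≤ X := by
    intro x hx
    rw [hX, Submodule.mem_comap, LinearMap.mem_ker.1 hx]
    exact zero_mem _
  have e3 : finrank k X = finrank k (ker πL) + finrank k (SQ.map l1Q) := by
    rw [finrank_eq_ker_add_map πL X e3c, e3b]
  have e3d : finrank k (range ιL) ≤ finrank k (ker πL) := by
    apply Submodule.finrank_mono
    rintro _ ⟨a, rfl⟩
    exact LinearMap.mem_ker.2 (hπι a)
  -- (4)
  set R0' : Submodule k P1I' := (range j1).map l1I' with hR0'
  have e4 : finrank k X + finrank k R0' ≤ finrank k P1I := by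
    refine finrank_add_le_of_orthogonal bI ndI X R0' ?_
    rintro x hx _ ⟨_, ⟨η, rfl⟩, rfl⟩
    obtain ⟨n, -, hn⟩ := hx
    rw [c2, ← adjQ, ← hn, recQ]
  -- (5)
  have e5 : finrank k (range l1I) + finrank k (ker l1I) = finrank k H1I :=
    LinearMap.finrank_range_add_finrank_ker l1I
  -- (7)
  have e7 : finrank k (ker l2Q') ≤
      finrank k (ker l2Q' ⊓ ker j2 : Submodule k H2Q') + finrank k (ker l2I') := by
    rw [finrank_eq_inf_ker_add_map j2 (ker l2Q')]
    apply Nat.add_le_add_left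
    apply Submodule.finrank_mono
    rintro _ ⟨x, hx, rfl⟩
    rw [LinearMap.mem_ker, c4, LinearMap.mem_ker.1 hx, map_zero]
  -- (8)
  set SA' : Submodule k H1A' := (ker l2Q').comap δ1' with hSA'
  have e8a : (ker l2Q' ⊓ ker j2 : Submodule k H2Q') ≤ SA'.map δ1' := by
    rintro x ⟨hx1, hx2⟩
    obtain ⟨m, rfl⟩ := hjδ hx2
    exact ⟨m, hx1, rfl⟩
  have e8b : ker δ1' ≤ SA' := by
    intro x hx
    rw [hSA', Submodule.mem_comap, LinearMap.mem_ker.1 hx]
    exact zero_mem _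
  have e8 : finrank k SA' = finrank k (ker δ1') + finrank k (SA'.map δ1') :=
    finrank_eq_ker_add_map δ1' SA' e8b
  have e8c : finrank k (range ρ1) ≤ finrank k (ker δ1') := by
    apply Submodule.finrank_mono
    rintro _ ⟨x, rfl⟩
    exact LinearMap.mem_ker.2 (hδρ x)
  have e8d : finrank k (range ρ1) + finrank k (ker ρ1) = finrank k H1I' :=
    LinearMap.finrank_range_add_finrank_ker ρ1
  have e8e : finrank k (ker ρ1) ≤ finrank k (range j1) := Submodule.finrank_mono hρj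
  have e8f := Submodule.finrank_mono e8a
  -- (9)
  have e9a : SA'.map l1A' ≤ range ρL := by
    rintro _ ⟨m, hm, rfl⟩
    apply hL'
    rw [LinearMap.mem_ker, ← c3]
    exact hm
  have e9 : finrank k SA' ≤ finrank k (ker l1A') + finrank k (range ρL) := by
    rw [finrank_eq_inf_ker_add_map l1A' SA']
    exact Nat.add_le_add (Submodule.finrank_mono inf_le_right) (Submodule.finrank_mono e9a)
  -- (10)
  have e10 : finrank k (range ρL) ≤ finrank k (range ιL) := by
    let Φ : P1I' →ₗ[k] Module.Dual k (range ιL) :=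
      (LinearMap.lcomp k k (range ιL).subtype).comp bI.flip
    have hΦ : ∀ (z : P1I') (y : range ιL), Φ z y = bI y z := fun z y => rfl
    have hker : ker Φ ≤ ker ρL := by
      intro z hz
      rw [LinearMap.mem_ker] at hz ⊢
      apply ndA
      intro a
      rw [← adjA]
      have := hΦ z ⟨ιL a, a, rfl⟩
      rw [hz] at this
      exact this.symm
    have h1 := LinearMap.finrank_range_add_finrank_ker ρL
    have h2 := LinearMap.finrank_range_add_finrank_ker Φ
    have h3 := Submodule.finrank_mono hker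
    have h4 : finrank k (range Φ) ≤ finrank k (range ιL) := by
      rw [← Subspace.dual_finrank_eq (K := k) (V := range ιL)]
      exact Submodule.finrank_le _
    omega
  -- (11)
  have e11a : finrank k (range l1I') + finrank k (ker l1I') = finrank k H1I' :=
    LinearMap.finrank_range_add_finrank_ker l1I'
  have e11b : finrank k (range j1) ≤ finrank k (ker l1I') + finrank k R0' := by
    rw [finrank_eq_inf_ker_add_map l1I' (range j1)]
    exact Nat.add_le_add_right (Submodule.finrank_mono inf_le_right) _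
  omega

end claim2

end Fermat.Agent.S55.FB
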