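/-
S55 / FORMAL-B : equivariant biadditive pairings ("dual pairs") and the constructions on them.
Definitions only (with the small proofs needed to make them).
-/
import Fermat.Agent.S55.Coh.LESExact
import Fermat.Agent.S55.Coh.Res
import Fermat.Agent.S55.Coh.H0

set_option autoImplicit false

namespace Fermat.Agent.S55.FB

/-- A biadditive `G`-equivariant pairing `A × A' → C`. -/
structure GPair (G A A' C : Type) [Group G] [AddCommGroup A] [DistribMulAction G A]
    [AddCommGroup A'] [DistribMulAction G A'] [AddCommGroup C] [DistribMulAction G C] where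
  /-- the underlying biadditive map -/
  toFun : A →+ A' →+ C
  smul_smul' : ∀ (g : G) (a : A) (a' : A'), toFun (g • a) (g • a') = g • toFun a a'

namespace GPair

variable {G H : Type} [Group G] [Group H]
variable {A A' C : Type} [AddCommGroup A] [DistribMulAction G A]
  [AddCommGroup A'] [DistribMulAction G A'] [AddCommGroup C] [DistribMulAction G C]

instance : CoeFun (GPair G A A' C) (fun _ => A → A' → C) := ⟨fun e a a' => e.toFun a a'⟩

theorem smul_smul (e : GPair G A A' C) (g : G) (a : A) (a' : A') :
    e (g • a) (g • a') = g • e a a' := e.smul_smul' g a a'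

@[simp] theorem add_left (e : GPair G A A' C) (a b : A) (a' : A') :
    e (a + b) a' = e a a' + e b a' := by
  change e.toFun (a + b) a' = _
  rw [map_add]; rfl

@[simp] theorem add_right (e : GPair G A A' C) (a : A) (a' b' : A') :
    e a (a' + b') = e a a' + e a b' := map_add (e.toFun a) a' b'

@[simp] theorem zero_left (e : GPair G A A' C) (a' : A') : e 0 a' = 0 := by
  change e.toFun 0 a' = _
  rw [map_zero]; rfl

@[simp] theorem zero_right (e : GPair G A A' C) (a : A) : e a 0 = 0 := map_zero (e.toFun a)

@[simp] theorem neg_left (e : GPair G A A' C) (a : A) (a' : A') : e (-a) a' = - e a a' := by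
  change e.toFun (-a) a' = _
  rw [map_neg]; rfl

@[simp] theorem neg_right (e : GPair G A A' C) (a : A) (a' : A') : e a (-a') = - e a a' :=
  map_neg (e.toFun a) a'

@[simp] theorem sub_left (e : GPair G A A' C) (a b : A) (a' : A') :
    e (a - b) a' = e a a' - e b a' := by
  change e.toFun (a - b) a' = _
  rw [map_sub]; rfl

@[simp] theorem sub_right (e : GPair G A A' C) (a : A) (a' b' : A') :
    e a (a' - b') = e a a' - e a b' := map_sub (e.toFun a) a' b'

/-- Both kernels of the pairing are trivial. -/
def IsPerfect (e : GPair G A A' C) : Prop :=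
  (∀ a, (∀ a', e a a' = 0) → a = 0) ∧ (∀ a', (∀ a, e a a' = 0) → a' = 0)

/-- Exchange the two variables. -/
def flip (e : GPair G A A' C) : GPair G A' A C where
  toFun := e.toFun.flip
  smul_smul' g a' a := e.smul_smul' g a a'

@[simp] theorem flip_apply (e : GPair G A A' C) (a : A) (a' : A') : e.flip a' a = e a a' := rfl

theorem IsPerfect.flip {e : GPair G A A' C} (h : e.IsPerfect) : e.flip.IsPerfect := ⟨h.2, h.1⟩

/-- The evaluation pairing `N × Hom(N, C) → C`. -/
def ev (G N C : Type) [Group G] [AddCommGroup N] [DistribMulAction G N] [AddCommGroup C]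
    [DistribMulAction G C] : GPair G N (HomMod N C) C where
  toFun :=
    { toFun := fun n =>
        { toFun := fun φ => φ n
          map_zero' := rfl
          map_add' := fun _ _ => rfl }
      map_zero' := by ext φ; exact map_zero φ
      map_add' := fun n n' => by ext φ; exact map_add φ n n' }
  smul_smul' g n φ := by
    change (g • φ) (g • n) = g • φ n
    rw [HomMod.smul_apply, inv_smul_smul]

@[simp] theorem ev_apply {N : Type} [AddCommGroup N] [DistribMulAction G N] (n : N)
    (φ : HomMod N C) : ev G N C n φ = φ n := rfl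

/-- Restriction of a pairing along a group homomorphism. -/
def res (f : H →* G) (e : GPair G A A' C) : GPair H (ResMod f A) (ResMod f A') (ResMod f C) where
  toFun :=
    { toFun := fun a =>
        { toFun := fun a' => ResMod.toRes f (e ((ResMod.toRes f).symm a) ((ResMod.toRes f).symm a'))
          map_zero' := by simp
          map_add' := fun x y => by simp }
      map_zero' := by ext; simp
      map_add' := fun x y => by ext; simp }
  smul_smul' h a a' := by
    obtain ⟨a, rfl⟩ := (ResMod.toRes f).surjective a
    obtain ⟨a', rfl⟩ := (ResMod.toRes f).surjective a'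
    change ResMod.toRes f (e ((ResMod.toRes f).symm (h • ResMod.toRes f a))
      ((ResMod.toRes f).symm (h • ResMod.toRes f a'))) =
      h • ResMod.toRes f (e ((ResMod.toRes f).symm (ResMod.toRes f a))
        ((ResMod.toRes f).symm (ResMod.toRes f a')))
    simp only [ResMod.smul_def, AddEquiv.symm_apply_apply, e.smul_smul]

@[simp] theorem res_toRes (f : H →* G) (e : GPair G A A' C) (a : A) (a' : A') :
    e.res f (ResMod.toRes f a) (ResMod.toRes f a') = ResMod.toRes f (e a a') := rfl

/-- The pairing `Map(X, A) × Map(X, A') → C`, `(f, f') ↦ ∑ₓ e (f x) (f' x)`. -/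
noncomputable def ind (X : Type) [MulAction G X] [Finite X] (e : GPair G A A' C) :
    GPair G (IndMod X A) (IndMod X A') C where
  toFun :=
    { toFun := fun f =>
        { toFun := fun f' => ∑ᶠ x : X, e (f x) (f' x)
          map_zero' := by simp
          map_add' := fun u v => by
            simp only [IndMod.add_apply, add_right]
            exact finsum_add_distrib (Set.toFinite _) (Set.toFinite _) }
      map_zero' := by ext; simp
      map_add' := fun u v => by
        ext f'
        simp only [IndMod.add_apply, add_left, AddMonoidHom.coe_mk, ZeroHom.coe_mk,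
          AddMonoidHom.add_apply]
        exact finsum_add_distrib (Set.toFinite _) (Set.toFinite _) }
  smul_smul' g f f' := by
    change ∑ᶠ x : X, e ((g • f) x) ((g • f') x) = g • ∑ᶠ x : X, e (f x) (f' x)
    rw [smul_finsum' _ (Set.toFinite _)]
    simp only [IndMod.smul_apply, e.smul_smul]
    exact finsum_comp_equiv (MulAction.toPerm g⁻¹) (f := fun x => g • e (f x) (f' x))

theorem ind_apply (X : Type) [MulAction G X] [Finite X] (e : GPair G A A' C)
    (f : IndMod X A) (f' : IndMod X A') : e.ind X f f' = ∑ᶠ x : X, e (f x) (f' x) := rfl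

/-- The pairing induced on `(B / K) × K'` when `K ⊥ K'`. -/
def quot (e : GPair G A A' C) (K : GSub G A) (K' : GSub G A')
    (h : ∀ a ∈ K.toAddSubgroup, ∀ a' ∈ K'.toAddSubgroup, e a a' = 0) :
    GPair G K.Quot K'.Mod C where
  toFun := QuotientAddGroup.lift K.toAddSubgroup
    ((AddMonoidHom.compHom' K'.incl).comp e.toFun) (fun a ha => by
      ext k
      exact h a ha _ (K'.incl_mem k))
  smul_smul' g a k := by
    obtain ⟨a, rfl⟩ := K.proj_surjective a
    exact e.smul_smul g a (K'.incl k)

@[simp] theorem quot_apply (e : GPair G A A' C) (K : GSub G A) (K' : GSub G A')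
    (h : ∀ a ∈ K.toAddSubgroup, ∀ a' ∈ K'.toAddSubgroup, e a a' = 0) (a : A) (k : K'.Mod) :
    e.quot K K' h (K.proj a) k = e a (K'.incl k) := rfl

end GPair

/-- `𝔽_p` with the trivial action of every group. -/
def Fp (p : ℕ) : Type := ZMod p

namespace Fp

variable (p : ℕ)

instance : AddCommGroup (Fp p) := inferInstanceAs (AddCommGroup (ZMod p))

/-- the identity `ZMod p ≃+ Fp p` -/
def of : ZMod p ≃+ Fp p := AddEquiv.refl _

instance (G : Type) [Group G] : DistribMulAction G (Fp p) where
  smul _ x := x
  one_smul _ := rfl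
  mul_smul _ _ _ := rfl
  smul_zero _ := rfl
  smul_add _ _ _ := rfl

@[simp] theorem smul_def {G : Type} [Group G] (g : G) (x : Fp p) : g • x = x := rfl

instance {G : Type} [Group G] (𝓝 : LevelSys G) : Smooth 𝓝 (Fp p) where
  exists_fix _ := by
    obtain ⟨N, hN⟩ := 𝓝.nonempty
    exact ⟨N, hN, fun _ _ => rfl⟩

instance [NeZero p] : Finite (Fp p) := inferInstanceAs (Finite (ZMod p))

end Fp

/-- The scalar multiplication `𝔽_p × μ → μ` of a group killed by `p`, as an equivariant pairing. -/
def fpPair (p : ℕ) (G μ : Type) [Group G] [AddCommGroup μ] [DistribMulAction G μ]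
    (hμ : ∀ m : μ, p • m = 0) : GPair G (Fp p) μ μ where
  toFun := (ZMod.lift p ⟨zmultiplesHom (μ →+ μ) (AddMonoidHom.id μ), by
      ext m
      simpa using hμ m⟩ : ZMod p →+ (μ →+ μ))
  smul_smul' g c m := by
    obtain ⟨k, rfl⟩ := ZMod.intCast_surjective (n := p) c
    change (ZMod.lift p _ : ZMod p →+ (μ →+ μ)) (k : ZMod p) (g • m) =
      g • (ZMod.lift p _ : ZMod p →+ (μ →+ μ)) (k : ZMod p) m
    rw [ZMod.lift_coe]
    change (k • AddMonoidHom.id μ) (g • m) = g • (k • AddMonoidHom.id μ) m
    simp only [AddMonoidHom.smul_apply, AddMonoidHom.id_apply]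
    exact (smul_comm g k m).symm

theorem fpPair_intCast (p : ℕ) (G μ : Type) [Group G] [AddCommGroup μ] [DistribMulAction G μ]
    (hμ : ∀ m : μ, p • m = 0) (k : ℤ) (m : μ) :
    fpPair p G μ hμ (Fp.of p (k : ZMod p)) m = k • m := by
  change (ZMod.lift p _ : ZMod p →+ (μ →+ μ)) (k : ZMod p) m = _
  rw [ZMod.lift_coe]
  simp

end Fermat.Agent.S55.FB
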