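/-
S55 / FORMAL-B (task S55-FB-4, helper245): the cup product `H^0 × H^2 → H^2` on smooth cohomology.
-/
import Fermat.Agent.S55.FB.Pair

set_option autoImplicit false

namespace Fermat.Agent.S55.FB

variable {G H : Type} [Group G] [Group H] {𝓝 : LevelSys G}
variable {A A' C : Type} [AddCommGroup A] [DistribMulAction G A]
  [AddCommGroup A'] [DistribMulAction G A'] [AddCommGroup C] [DistribMulAction G C]

/-! ### cochain level -/

/-- `(a ∪ z)(g₀, g₁) = e(a, z(g₀, g₁))`. -/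
def cup02c (e : GPair G A A' C) (a : (Fin 0 → G) → A) (z : (Fin 2 → G) → A') :
    (Fin 2 → G) → C := fun g => e (a default) (z g)

/-- Pairing with an invariant element is an equivariant map. -/
def GPair.homOfInv (e : GPair G A A' C) (a : A) (ha : a ∈ inv0 G A) : A' →+[G] C where
  toFun a' := e a a'
  map_smul' g a' := by
    have h := e.smul_smul g a a'
    rw [ha g] at h
    exact h
  map_zero' := e.zero_right a
  map_add' := e.add_right a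

@[simp]
theorem GPair.homOfInv_apply (e : GPair G A A' C) (a : A) (ha : a ∈ inv0 G A) (a' : A') :
    e.homOfInv a ha a' = e a a' := rfl

theorem cup02c_eq_cmap (e : GPair G A A' C) {a : (Fin 0 → G) → A} (ha : a ∈ Zsm 𝓝 A 0)
    (z : (Fin 2 → G) → A') :
    cup02c e a z = cmap ((e.homOfInv (a default) (mem_Zsm_zero.1 ha) : A' →+[G] C) : A' →+ C) 2 z :=
  rfl

/-- TASK Cup-A -/
theorem cup02c_mem_Zsm (e : GPair G A A' C) {a : (Fin 0 → G) → A} {z : (Fin 2 → G) → A'}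
    (ha : a ∈ Zsm 𝓝 A 0) (hz : z ∈ Zsm 𝓝 A' 2) : cup02c e a z ∈ Zsm 𝓝 C 2 := by
  rw [cup02c_eq_cmap e ha]
  exact cmap_mem_Zsm _ hz

/-- TASK Cup-A -/
theorem exists_cup02 (𝓝 : LevelSys G) (e : GPair G A A' C) :
    ∃ c : Hsm 𝓝 A 0 →+ Hsm 𝓝 A' 2 →+ Hsm 𝓝 C 2, ∀ (a : Zsm 𝓝 A 0) (z : Zsm 𝓝 A' 2),
      c (Hsm.mk 𝓝 A 0 a) (Hsm.mk 𝓝 A' 2 z) =
        Hsm.mk 𝓝 C 2 ⟨cup02c e a z, cup02c_mem_Zsm e a.2 z.2⟩ := by
  let u : Zsm 𝓝 A 0 →+ (Hsm 𝓝 A' 2 →+ Hsm 𝓝 C 2) :=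
    AddMonoidHom.mk' (fun a => Hsm.map (𝓝 := 𝓝)
      (e.homOfInv ((a : (Fin 0 → G) → A) default) (mem_Zsm_zero.1 a.2)) 2) (by
      intro a b
      ext x
      exact Hsm.map_add' (fun a' => e.add_left _ _ a') 2 x)
  refine ⟨Hsm.lift u ?_, ?_⟩
  · intro z hz
    rw [mem_Bsm_zero] at hz
    have : z = 0 := Subtype.ext hz
    rw [this, map_zero]
  · intro a z
    rfl

/-! ### cohomology level -/

/-- The cup product `H^0(A) × H^2(A') → H^2(C)`. -/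
noncomputable def cup02 (𝓝 : LevelSys G) (e : GPair G A A' C) :
    Hsm 𝓝 A 0 →+ Hsm 𝓝 A' 2 →+ Hsm 𝓝 C 2 := (exists_cup02 𝓝 e).choose

theorem cup02_mk (e : GPair G A A' C) (a : Zsm 𝓝 A 0) (z : Zsm 𝓝 A' 2) :
    cup02 𝓝 e (Hsm.mk 𝓝 A 0 a) (Hsm.mk 𝓝 A' 2 z) =
      Hsm.mk 𝓝 C 2 ⟨cup02c e a z, cup02c_mem_Zsm e a.2 z.2⟩ :=
  (exists_cup02 𝓝 e).choose_spec a z

end Fermat.Agent.S55.FB
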