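/-
S55 / FORMAL-B (task S55-FB-5, helper245): the cup product `H^1 × H^1 → H^2` on smooth cohomology.
-/
import Fermat.Agent.S55.FB.Pair

set_option autoImplicit false

namespace Fermat.Agent.S55.FB

variable {G H : Type} [Group G] [Group H] {𝓝 : LevelSys G}
variable {A A' C : Type} [AddCommGroup A] [DistribMulAction G A]
  [AddCommGroup A'] [DistribMulAction G A'] [AddCommGroup C] [DistribMulAction G C]

/-! ### explicit differentials -/

theorem dd_one_apply (f : (Fin 1 → G) → A) (g : Fin 2 → G) :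
    dd A 1 f g = g 0 • f (fun _ => g 1) - f (fun _ => g 0 * g 1) + f (fun _ => g 0) := by
  have h0 : (fun i : Fin 1 => g i.succ) = fun _ => g 1 := by
    funext i; fin_cases i; rfl
  have h1 : Fin.contractNth (0 : Fin 2) (· * ·) g = fun _ => g 0 * g 1 := by
    funext i; fin_cases i; rfl
  have h2 : Fin.contractNth (1 : Fin 2) (· * ·) g = fun _ => g 0 := by
    funext i; fin_cases i; rfl
  rw [dd_apply, Fin.sum_univ_two, h0, h1, h2]
  simp only [Fin.val_zero, Fin.val_one, zero_add, pow_one, neg_smul, one_smul]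
  norm_num
  abel

theorem dd_two_apply (f : (Fin 2 → G) → A) (g : Fin 3 → G) :
    dd A 2 f g = g 0 • f ![g 1, g 2] - f ![g 0 * g 1, g 2] + f ![g 0, g 1 * g 2]
      - f ![g 0, g 1] := by
  have h0 : (fun i : Fin 2 => g i.succ) = ![g 1, g 2] := by
    funext i; fin_cases i <;> rfl
  have h1 : Fin.contractNth (0 : Fin 3) (· * ·) g = ![g 0 * g 1, g 2] := by
    funext i; fin_cases i <;> rfl
  have h2 : Fin.contractNth (1 : Fin 3) (· * ·) g = ![g 0, g 1 * g 2] := by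
    funext i; fin_cases i <;> rfl
  have h3 : Fin.contractNth (2 : Fin 3) (· * ·) g = ![g 0, g 1] := by
    funext i; fin_cases i <;> rfl
  rw [dd_apply, Fin.sum_univ_three, h0, h1, h2, h3]
  simp only [Fin.val_zero, Fin.val_one, Fin.val_two, zero_add, pow_one, neg_smul, one_smul]
  norm_num
  abel

/-- The cocycle relation in degree one. -/
theorem cocycle_one {f : (Fin 1 → G) → A} (hf : dd A 1 f = 0) (g h : G) :
    f (fun _ => g * h) = f (fun _ => g) + g • f (fun _ => h) := by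
  have h1 := congrFun hf ![g, h]
  rw [dd_one_apply] at h1
  simp only [Matrix.cons_val_zero, Matrix.cons_val_one, Pi.zero_apply] at h1
  have h2 : g • f (fun _ => h) + f (fun _ => g) = f (fun _ => g * h) := by
    rw [← sub_eq_zero, ← h1]; abel
  rw [← h2]; abel

/-! ### cochain level -/

/-- `(x ∪ y)(g₀, g₁) = e(x(g₀), g₀ • y(g₁))`. -/
def cup11c (e : GPair G A A' C) (x : (Fin 1 → G) → A) (y : (Fin 1 → G) → A') :
    (Fin 2 → G) → C := fun g => e (x fun _ => g 0) (g 0 • y fun _ => g 1)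

theorem cup11c_apply (e : GPair G A A' C) (x : (Fin 1 → G) → A) (y : (Fin 1 → G) → A')
    (g : Fin 2 → G) : cup11c e x y g = e (x fun _ => g 0) (g 0 • y fun _ => g 1) := rfl

theorem cup11c_cons (e : GPair G A A' C) (x : (Fin 1 → G) → A) (y : (Fin 1 → G) → A')
    (g h : G) : cup11c e x y ![g, h] = e (x fun _ => g) (g • y fun _ => h) := rfl

theorem cup11c_add_left (e : GPair G A A' C) (x x' : (Fin 1 → G) → A) (y : (Fin 1 → G) → A') :
    cup11c e (x + x') y = cup11c e x y + cup11c e x' y := by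
  funext g
  simp [cup11c_apply]

theorem cup11c_add_right (e : GPair G A A' C) (x : (Fin 1 → G) → A) (y y' : (Fin 1 → G) → A') :
    cup11c e x (y + y') = cup11c e x y + cup11c e x y' := by
  funext g
  simp [cup11c_apply]

/-- smoothness of the cup product of two smooth cochains -/
theorem cup11c_mem_Csm [Smooth 𝓝 A'] (e : GPair G A A' C) {x : (Fin 1 → G) → A}
    {y : (Fin 1 → G) → A'} (hx : x ∈ Csm 𝓝 A 1) (hy : y ∈ Csm 𝓝 A' 1) :
    cup11c e x y ∈ Csm 𝓝 C 2 := by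
  obtain ⟨N, hN, hxN, hyN⟩ := IsLevel.exists_common hx hy
  obtain ⟨N', hN', hfix⟩ := Smooth.exists_fix_of_finite (𝓝 := 𝓝) (IsLevel.finite_range hy)
  obtain ⟨N'', hN'', hle⟩ := 𝓝.directed N hN N' hN'
  refine ⟨N'', hN'', fun g k hgk => ?_⟩
  rw [cup11c_apply, cup11c_apply]
  have h1 : x (fun _ => g 0) = x (fun _ => k 0) := hxN _ _ fun _ => (hle (hgk 0)).1
  have h2 : y (fun _ => g 1) = y (fun _ => k 1) := hyN _ _ fun _ => (hle (hgk 1)).1
  have h3 : k 0 = g 0 * ((g 0)⁻¹ * k 0) := by group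
  rw [h1, ← h2, h3, mul_smul, hfix _ ⟨_, rfl⟩ _ (hle (hgk 0)).2, ← h3]

/-- the cup product of two cocycles is a cocycle -/
theorem dd_cup11c (e : GPair G A A' C) {x : (Fin 1 → G) → A} {y : (Fin 1 → G) → A'}
    (hx : dd A 1 x = 0) (hy : dd A' 1 y = 0) : dd C 2 (cup11c e x y) = 0 := by
  funext g
  rw [dd_two_apply, cup11c_cons, cup11c_cons, cup11c_cons, cup11c_cons, cocycle_one hx,
    cocycle_one hy, ← e.smul_smul, smul_add, mul_smul]
  simp only [GPair.add_left, GPair.add_right, Pi.zero_apply]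
  abel

/-- TASK Cup-B -/
theorem cup11c_mem_Zsm [Smooth 𝓝 A'] (e : GPair G A A' C) {x : (Fin 1 → G) → A}
    {y : (Fin 1 → G) → A'} (hx : x ∈ Zsm 𝓝 A 1) (hy : y ∈ Zsm 𝓝 A' 1) :
    cup11c e x y ∈ Zsm 𝓝 C 2 :=
  ⟨cup11c_mem_Csm e hx.1 hy.1, dd_cup11c e hx.2 hy.2⟩

/-- `d a ∪ y = d (g ↦ e (a, y g))`. -/
theorem cup11c_dd_left (e : GPair G A A' C) (a : (Fin 0 → G) → A) {y : (Fin 1 → G) → A'}
    (hy : dd A' 1 y = 0) :
    cup11c e (dd A 0 a) y = dd C 1 (fun g => e (a default) (y g)) := by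
  funext g
  rw [cup11c_apply, dd_zero_apply, dd_one_apply, cocycle_one hy, ← e.smul_smul]
  simp only [GPair.sub_left, GPair.add_right]
  abel

/-- `x ∪ d b = - d (g ↦ e (x g, g b))`. -/
theorem cup11c_dd_right (e : GPair G A A' C) {x : (Fin 1 → G) → A} (hx : dd A 1 x = 0)
    (b : (Fin 0 → G) → A') :
    cup11c e x (dd A' 0 b) = dd C 1 (fun g => - e (x g) (g 0 • b default)) := by
  funext g
  rw [cup11c_apply, dd_zero_apply, dd_one_apply, cocycle_one hx, smul_neg, ← e.smul_smul,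
    smul_sub, mul_smul]
  simp only [GPair.sub_right, GPair.add_left]
  abel

theorem cup11c_mem_Bsm_left (e : GPair G A A' C) {x : (Fin 1 → G) → A}
    {y : (Fin 1 → G) → A'} (hx : x ∈ Bsm 𝓝 A 1) (hy : y ∈ Zsm 𝓝 A' 1) :
    cup11c e x y ∈ Bsm 𝓝 C 2 := by
  obtain ⟨a, -, rfl⟩ := hx
  rw [cup11c_dd_left e a hy.2]
  exact dd_mem_Bsm (IsLevel.comp hy.1 fun a' => e (a default) a')

theorem cup11c_mem_Bsm_right [Smooth 𝓝 A'] (e : GPair G A A' C) {x : (Fin 1 → G) → A}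
    {y : (Fin 1 → G) → A'} (hx : x ∈ Zsm 𝓝 A 1) (hy : y ∈ Bsm 𝓝 A' 1) :
    cup11c e x y ∈ Bsm 𝓝 C 2 := by
  obtain ⟨b, -, rfl⟩ := hy
  rw [cup11c_dd_right e hx.2 b]
  apply dd_mem_Bsm
  obtain ⟨N, hN, hxN⟩ := hx.1
  obtain ⟨N', hN', hfix⟩ := Smooth.exists_fix (𝓝 := 𝓝) (b default)
  obtain ⟨N'', hN'', hle⟩ := 𝓝.directed N hN N' hN'
  refine ⟨N'', hN'', fun g k hgk => ?_⟩
  have h1 : x g = x k := hxN _ _ fun i => (hle (hgk i)).1
  have h3 : k 0 = g 0 * ((g 0)⁻¹ * k 0) := by group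
  show - e (x g) (g 0 • b default) = - e (x k) (k 0 • b default)
  rw [h1, h3, mul_smul, hfix _ (hle (hgk 0)).2]

/-- TASK Cup-B -/
theorem exists_cup11 (𝓝 : LevelSys G) [Smooth 𝓝 A'] (e : GPair G A A' C) :
    ∃ c : Hsm 𝓝 A 1 →+ Hsm 𝓝 A' 1 →+ Hsm 𝓝 C 2, ∀ (x : Zsm 𝓝 A 1) (y : Zsm 𝓝 A' 1),
      c (Hsm.mk 𝓝 A 1 x) (Hsm.mk 𝓝 A' 1 y) =
        Hsm.mk 𝓝 C 2 ⟨cup11c e x y, cup11c_mem_Zsm e x.2 y.2⟩ := by
  -- fixed `x`, additive in `y`
  let u : Zsm 𝓝 A 1 → (Zsm 𝓝 A' 1 →+ Hsm 𝓝 C 2) := fun x =>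
    AddMonoidHom.mk' (fun y => Hsm.mk 𝓝 C 2 ⟨cup11c e x y, cup11c_mem_Zsm e x.2 y.2⟩) (by
      intro y y'
      rw [← map_add]
      exact congrArg _ (Subtype.ext (cup11c_add_right e _ _ _)))
  let v : Zsm 𝓝 A 1 → (Hsm 𝓝 A' 1 →+ Hsm 𝓝 C 2) := fun x =>
    Hsm.lift (u x) fun y hy => (Hsm.mk_eq_zero_iff _).2 (cup11c_mem_Bsm_right e x.2 hy)
  let w : Zsm 𝓝 A 1 →+ (Hsm 𝓝 A' 1 →+ Hsm 𝓝 C 2) :=
    AddMonoidHom.mk' v (by
      intro x x'
      apply Hsm.hom_ext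
      intro y
      show Hsm.mk 𝓝 C 2 _ = Hsm.mk 𝓝 C 2 _ + Hsm.mk 𝓝 C 2 _
      rw [← map_add]
      exact congrArg _ (Subtype.ext (cup11c_add_left e _ _ _)))
  refine ⟨Hsm.lift w ?_, fun x y => rfl⟩
  intro x hx
  apply Hsm.hom_ext
  intro y
  exact (Hsm.mk_eq_zero_iff _).2 (cup11c_mem_Bsm_left e hx y.2)

/-! ### cohomology level -/

/-- The cup product `H^1(A) × H^1(A') → H^2(C)`. -/
noncomputable def cup11 (𝓝 : LevelSys G) [Smooth 𝓝 A'] (e : GPair G A A' C) :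
    Hsm 𝓝 A 1 →+ Hsm 𝓝 A' 1 →+ Hsm 𝓝 C 2 := (exists_cup11 𝓝 e).choose

theorem cup11_mk [Smooth 𝓝 A'] (e : GPair G A A' C) (x : Zsm 𝓝 A 1) (y : Zsm 𝓝 A' 1) :
    cup11 𝓝 e (Hsm.mk 𝓝 A 1 x) (Hsm.mk 𝓝 A' 1 y) =
      Hsm.mk 𝓝 C 2 ⟨cup11c e x y, cup11c_mem_Zsm e x.2 y.2⟩ :=
  (exists_cup11 𝓝 e).choose_spec x y

end Fermat.Agent.S55.FB
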