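/-
S55 / FORMAL-B : adjointness (naturality in the modules) of the cup products.
-/
import Fermat.Agent.S55.FB.Cup02
import Fermat.Agent.S55.FB.Cup11

set_option autoImplicit false

namespace Fermat.Agent.S55.FB

variable {G : Type} [Group G] {𝓝 : LevelSys G}
variable {A A' C : Type} [AddCommGroup A] [DistribMulAction G A]
  [AddCommGroup A'] [DistribMulAction G A'] [AddCommGroup C] [DistribMulAction G C]

section adj

variable {A₁ A₁' : Type} [AddCommGroup A₁] [DistribMulAction G A₁]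
  [AddCommGroup A₁'] [DistribMulAction G A₁']

theorem cup02_adj (e : GPair G A A' C) (e₁ : GPair G A₁ A₁' C) (f : A →+[G] A₁)
    (f' : A₁' →+[G] A') (h : ∀ a a₁', e₁ (f a) a₁' = e a (f' a₁'))
    (x : Hsm 𝓝 A 0) (y : Hsm 𝓝 A₁' 2) :
    cup02 𝓝 e₁ (Hsm.map f 0 x) y = cup02 𝓝 e x (Hsm.map f' 2 y) := by
  induction x using Hsm.induction_on with
  | _ x =>
  induction y using Hsm.induction_on with
  | _ y =>
  rw [Hsm.map_mk, Hsm.map_mk, cup02_mk, cup02_mk]
  congr 1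
  apply Subtype.ext
  funext g
  exact h _ _

theorem cup11_adj [Smooth 𝓝 A'] [Smooth 𝓝 A₁'] (e : GPair G A A' C) (e₁ : GPair G A₁ A₁' C)
    (f : A →+[G] A₁) (f' : A₁' →+[G] A') (h : ∀ a a₁', e₁ (f a) a₁' = e a (f' a₁'))
    (x : Hsm 𝓝 A 1) (y : Hsm 𝓝 A₁' 1) :
    cup11 𝓝 e₁ (Hsm.map f 1 x) y = cup11 𝓝 e x (Hsm.map f' 1 y) := by
  induction x using Hsm.induction_on with
  | _ x =>
  induction y using Hsm.induction_on with
  | _ y =>
  rw [Hsm.map_mk, Hsm.map_mk, cup11_mk, cup11_mk]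
  congr 1
  apply Subtype.ext
  funext g
  show e₁ (f ((x : (Fin 1 → G) → A) fun _ => g 0)) (g 0 • (y : (Fin 1 → G) → A₁') fun _ => g 1) =
    e ((x : (Fin 1 → G) → A) fun _ => g 0) (g 0 • f' ((y : (Fin 1 → G) → A₁') fun _ => g 1))
  rw [h, map_smul]

end adj

end Fermat.Agent.S55.FB
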