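/-
S55 / FORMAL-B, task S55-FB-8 (helper227): compatibility of the cup products with the connecting
homomorphisms, `c ∪ δ' m' = - (δ c) ∪ m'`.
-/
import Fermat.Agent.S55.FB.Cup02
import Fermat.Agent.S55.FB.Cup11

set_option autoImplicit false

namespace Fermat.Agent.S55.FB

variable {G : Type} [Group G] {𝓝 : LevelSys G}
variable {C : Type} [AddCommGroup C] [DistribMulAction G C]

/-- The differential in degree one. -/
theorem CupDelta.dd_one_apply {A : Type} [AddCommGroup A] [DistribMulAction G A]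
    (f : (Fin 1 → G) → A) (g : Fin 2 → G) :
    dd A 1 f g = g 0 • f (fun _ => g 1) - f (fun _ => g 0 * g 1) + f (fun _ => g 0) := by
  rw [dd_apply, Fin.sum_univ_two]
  have h0 : (fun i : Fin 1 => g i.succ) = fun _ => g 1 := by
    funext i
    rw [Subsingleton.elim i 0]
    rfl
  have h1 : Fin.contractNth (0 : Fin 2) (· * ·) g = fun _ => g 0 * g 1 := by
    funext i
    rw [Subsingleton.elim i 0]
    simp [Fin.contractNth]
  have h2 : Fin.contractNth (1 : Fin 2) (· * ·) g = fun _ => g 0 := by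
    funext i
    rw [Subsingleton.elim i 0]
    simp [Fin.contractNth]
  rw [h0, h1, h2]
  simp only [Fin.val_zero, Fin.val_one, zero_add, pow_one, neg_smul, one_smul]
  norm_num
  abel

section delta

variable {M B N M' B' N' : Type}
  [AddCommGroup M] [DistribMulAction G M] [AddCommGroup B] [DistribMulAction G B]
  [AddCommGroup N] [DistribMulAction G N] [AddCommGroup M'] [DistribMulAction G M']
  [AddCommGroup B'] [DistribMulAction G B'] [AddCommGroup N'] [DistribMulAction G N']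

/-- TASK Cup-E.  `0 → M → B → N → 0`, `0 → N' → B' → M' → 0`, compatible pairings.
`c ∪ δ' m' = - (δ c) ∪ m'`  (the difference of the two cocycles is `d (g ↦ e_B (b, m̃(g)))`). -/
theorem cup02_delta [Smooth 𝓝 B] [Smooth 𝓝 B'] [Smooth 𝓝 M']
    {φ : M →+[G] B} {ψ : B →+[G] N} {ψ' : N' →+[G] B'} {φ' : B' →+[G] M'}
    (hs : ShortExact φ ψ) (hs' : ShortExact ψ' φ')
    (eM : GPair G M M' C) (eB : GPair G B B' C) (eN : GPair G N N' C)
    (h₁ : ∀ m b', eB (φ m) b' = eM m (φ' b')) (h₂ : ∀ b n', eN (ψ b) n' = eB b (ψ' n'))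
    (c : Hsm 𝓝 N 0) (m' : Hsm 𝓝 M' 1) :
    cup02 𝓝 eN c (Hsm.delta hs' 1 m') = - cup11 𝓝 eM (Hsm.delta hs 0 c) m' := by
  obtain ⟨a0, rfl⟩ := Hsm.mk_surjective 0 c
  obtain ⟨μ, rfl⟩ := Hsm.mk_surjective 1 m'
  obtain ⟨x, ⟨b0, -, hb0, hx⟩, hδ⟩ := Hsm.exists_delta_mk hs a0
  obtain ⟨y, ⟨mt, hmt, hmtμ, hy⟩, hδ'⟩ := Hsm.exists_delta_mk hs' μ
  rw [hδ, hδ', cup02_mk, cup11_mk, eq_neg_iff_add_eq_zero, ← map_add, Hsm.mk_eq_zero_iff]
  refine ⟨cmap (eB.toFun (b0 default)) 1 mt, cmap_mem_Csm _ hmt, ?_⟩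
  funext g
  have hx' : ∀ k : Fin 1 → G, φ ((x : (Fin 1 → G) → M) k) = k 0 • b0 default - b0 default := by
    intro k
    have := congrFun hx k
    rw [dd_zero_apply] at this
    exact this
  have hy' : ψ' ((y : (Fin 2 → G) → N') g)
      = g 0 • mt (fun _ => g 1) - mt (fun _ => g 0 * g 1) + mt (fun _ => g 0) := by
    have := congrFun hy g
    rw [CupDelta.dd_one_apply] at this
    exact this
  have ha0 : (a0 : (Fin 0 → G) → N) default = ψ (b0 default) := (congrFun hb0 default).symm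
  have hμ : ∀ k : Fin 1 → G, (μ : (Fin 1 → G) → M') k = φ' (mt k) := fun k =>
    (congrFun hmtμ k).symm
  rw [CupDelta.dd_one_apply]
  show g 0 • eB (b0 default) (mt fun _ => g 1) - eB (b0 default) (mt fun _ => g 0 * g 1)
      + eB (b0 default) (mt fun _ => g 0)
    = eN ((a0 : (Fin 0 → G) → N) default) ((y : (Fin 2 → G) → N') g)
      + eM ((x : (Fin 1 → G) → M) fun _ => g 0) (g 0 • (μ : (Fin 1 → G) → M') fun _ => g 1)
  have e1 : eN ((a0 : (Fin 0 → G) → N) default) ((y : (Fin 2 → G) → N') g)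
      = eB (b0 default) (g 0 • mt fun _ => g 1) - eB (b0 default) (mt fun _ => g 0 * g 1)
        + eB (b0 default) (mt fun _ => g 0) := by
    rw [ha0, h₂, hy', GPair.add_right, GPair.sub_right]
  have e2 : eM ((x : (Fin 1 → G) → M) fun _ => g 0) (g 0 • (μ : (Fin 1 → G) → M') fun _ => g 1)
      = g 0 • eB (b0 default) (mt fun _ => g 1) - eB (b0 default) (g 0 • mt fun _ => g 1) := by
    rw [hμ, ← map_smul φ', ← h₁, hx', GPair.sub_left, GPair.smul_smul]
  rw [e1, e2]
  abel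

end delta

end Fermat.Agent.S55.FB
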