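/-
S55 / FORMAL-B : compatibility of the cup products with restriction.  Owner: helper240.
-/
import Fermat.Agent.S55.FB.Cup02
import Fermat.Agent.S55.FB.Cup11

set_option autoImplicit false

namespace Fermat.Agent.S55.FB

variable {G H : Type} [Group G] [Group H] {𝓝 : LevelSys G}
variable {A A' C : Type} [AddCommGroup A] [DistribMulAction G A]
  [AddCommGroup A'] [DistribMulAction G A'] [AddCommGroup C] [DistribMulAction G C]

/-- `Hsm.res` on the class of a cocycle. -/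
theorem CupRes.res_mk (A : Type) [AddCommGroup A] [DistribMulAction G A] (f : H →* G)
    (𝓝H : LevelSys H) (h : (𝓝.comap f).Le 𝓝H) (n : ℕ) (z : Zsm 𝓝 A n) :
    Hsm.res A f 𝓝H 𝓝 h n (Hsm.mk 𝓝 A n z) =
      Hsm.mk 𝓝H (ResMod f A) n (Zsm.pmap f h (ResMod.toRes f : A ≃+ ResMod f A).toAddMonoidHom
        (fun x a => (ResMod.smul_def f x a).symm) n z) := rfl

/-- TASK Cup-D -/
theorem cup02_res (f : H →* G) (𝓝H : LevelSys H) (h : (𝓝.comap f).Le 𝓝H) (e : GPair G A A' C)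
    (x : Hsm 𝓝 A 0) (y : Hsm 𝓝 A' 2) :
    Hsm.res C f 𝓝H 𝓝 h 2 (cup02 𝓝 e x y) =
      cup02 𝓝H (e.res f) (Hsm.res A f 𝓝H 𝓝 h 0 x) (Hsm.res A' f 𝓝H 𝓝 h 2 y) := by
  induction x using Hsm.induction_on with
  | _ a =>
  induction y using Hsm.induction_on with
  | _ z =>
  rw [cup02_mk, CupRes.res_mk, CupRes.res_mk, CupRes.res_mk, cup02_mk]
  congr 1
  apply Subtype.ext
  funext g
  have h0 : (fun i : Fin 0 => f ((default : Fin 0 → H) i)) = (default : Fin 0 → G) :=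
    Subsingleton.elim _ _
  change ResMod.toRes f (e ((a : (Fin 0 → G) → A) default)
      ((z : (Fin 2 → G) → A') fun i => f (g i))) =
    e.res f (ResMod.toRes f ((a : (Fin 0 → G) → A) fun i => f ((default : Fin 0 → H) i)))
      (ResMod.toRes f ((z : (Fin 2 → G) → A') fun i => f (g i)))
  rw [h0, GPair.res_toRes]

/-- TASK Cup-D -/
theorem cup11_res [Smooth 𝓝 A'] (f : H →* G) (𝓝H : LevelSys H) [Smooth 𝓝H (ResMod f A')]
    (h : (𝓝.comap f).Le 𝓝H) (e : GPair G A A' C) (x : Hsm 𝓝 A 1) (y : Hsm 𝓝 A' 1) :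
    Hsm.res C f 𝓝H 𝓝 h 2 (cup11 𝓝 e x y) =
      cup11 𝓝H (e.res f) (Hsm.res A f 𝓝H 𝓝 h 1 x) (Hsm.res A' f 𝓝H 𝓝 h 1 y) := by
  induction x using Hsm.induction_on with
  | _ a =>
  induction y using Hsm.induction_on with
  | _ z =>
  rw [cup11_mk, CupRes.res_mk, CupRes.res_mk, CupRes.res_mk, cup11_mk]
  rfl

end Fermat.Agent.S55.FB
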