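/-
S55 / FORMAL-B : Serre's trick, pure linear algebra part.
-/
import Mathlib

set_option autoImplicit false

namespace Fermat.Agent.S55.FB

open Module Submodule LinearMap

variable {k : Type} [Field k]

/-! ## Serre's trick : injectivity of `H^1(M) → H^1(M')^*` (local) -/
section serre

variable {H0B H0C H1M H1M' H2C' H2B' : Type}
  [AddCommGroup H0B] [Module k H0B] [AddCommGroup H0C] [Module k H0C]
  [AddCommGroup H1M] [Module k H1M] [AddCommGroup H1M'] [Module k H1M']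
  [AddCommGroup H2C'] [Module k H2C'] [AddCommGroup H2B'] [Module k H2B']

theorem serre_injective
    (π : H0B →ₗ[k] H0C) (δ : H0C →ₗ[k] H1M) (hδπ : ∀ b, δ (π b) = 0)
    (δ' : H1M' →ₗ[k] H2C') (j : H2C' →ₗ[k] H2B') (hjδ : ker j ≤ range δ')
    (b11 : H1M →ₗ[k] H1M' →ₗ[k] k) (bC : H0C →ₗ[k] H2C' →ₗ[k] k) (bB : H0B →ₗ[k] H2B' →ₗ[k] k)
    (ε : k) (hcompat : ∀ c m, bC c (δ' m) = ε * b11 (δ c) m)
    (adj : ∀ b z, bC (π b) z = bB b (j z))
    (ndC : ∀ c, (∀ z, bC c z = 0) → c = 0)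
    (surjB : ∀ φ : H2B' →ₗ[k] k, ∃ b, ∀ z, bB b z = φ z)
    (c : H0C) (hc : ∀ m, b11 (δ c) m = 0) : δ c = 0 := by
  have hker : ker j ≤ ker (bC c) := by
    intro z hz
    obtain ⟨m, rfl⟩ := hjδ hz
    rw [LinearMap.mem_ker, hcompat, hc, mul_zero]
  obtain ⟨φ, hφ⟩ := LinearMap.exists_extend
    (((ker j).liftQ (bC c) hker).comp (j.quotKerEquivRange.symm : range j →ₗ[k] _))
  have hφ' : ∀ z, φ (j z) = bC c z := by
    intro z
    have h := LinearMap.congr_fun hφ ⟨j z, LinearMap.mem_range_self j z⟩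
    simp only [LinearMap.comp_apply, Submodule.subtype_apply, LinearEquiv.coe_coe] at h
    rw [h]
    have h2 : j.quotKerEquivRange.symm ⟨j z, LinearMap.mem_range_self j z⟩
        = (ker j).mkQ z := by
      rw [LinearEquiv.symm_apply_eq]
      rfl
    rw [h2]
    simp
  obtain ⟨b, hb⟩ := surjB φ
  have hcb : c - π b = 0 := by
    apply ndC
    intro z
    rw [map_sub, LinearMap.sub_apply, adj, hb, hφ', sub_self]
  rw [sub_eq_zero.mp hcb, hδπ]

end serre

end Fermat.Agent.S55.FB
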